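import Fermat.Agent.S59.H401.Dict
import Fermat.Agent.S54.FrobExists
import Fermat.Agent.Lib.Ribet.H584.DeligneSerre
import Fermat.Agent.Ribet.H104.FreyModelAtP

/-!
# Row HARD, cell TOP, piece BACK (helper401): `ResModular ⇒ ModularRepOfLevel`

The BACK dictionary of the TOP glue: a character `θ : 𝕋(M; S) → k` of the anemic Hecke algebra of
level `M` whose values at the `T_ℓ` are the traces of Frobenius on `E[p] ⊗ k`
(`G4.ResFrobCond (curveResidual p W hcard hker ι) θ`, i.e. the body of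
`Arch.ResModular 𝒪 ρ̄ M S`) makes the curve residually modular of level `M` in the Prelude sense.

* `back401_theta_T`      : `θ (T_ℓ) = a_ℓ(W)` in `k` for the good primes `ℓ ≥ 5`, `ℓ ≠ p`, `ℓ ∉ S`;
* `back401_congr`        : a normalised eigenform `f` of level `M` and a maximal ideal `𝔪 ∋ p` of
  `ℤ̄` with `a_ℓ(f) ≡ a_ℓ(W) mod 𝔪` for all primes `ℓ` outside a finite set;
* `back401_isResiduallyModular` : `W.IsResiduallyModularOfLevel p M`   (no R3' needed);
* `back401_frey`         : `P.ModularRepOfLevel M` for a Frey package (no R3' needed);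
* `back401_resModular`   : the shape of the field (BACK) of `S38.H727.FreyIADataStatement`.

Inputs: `S59.H401.dict_charpoly_good` (Frobenius on `E[p]` at good primes, on main),
`S54.exists_frobenius`, `Lib.Ribet.H584` (Deligne–Serre lifting).  Sorry-free.
-/

set_option autoImplicit false
set_option linter.style.haveILetI false

open Polynomial IsLocalRing CuspForm
open WeierstrassCurve WeierstrassCurve.Affine WeierstrassCurve.Affine.Point

namespace Fermat.Agent.S38.H401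

open Fermat.Agent.S59.Arch Fermat.Agent.S59.H401

/-- Restriction of a character of the Hecke algebra away from `S` to the Hecke algebra away from a
larger set `S'`. -/
noncomputable def backRestrict401 {N : ℕ} [NeZero N] {S S' : Set ℕ} (h : S ⊆ S') {k : Type*}
    [Semiring k] (θ : heckeAlgebra N 2 S →+* k) : heckeAlgebra N 2 S' →+* k :=
  θ.comp (Subalgebra.inclusion (heckeAlgebra_mono h)).toRingHom

theorem backRestrict401_T {N : ℕ} [NeZero N] {S S' : Set ℕ} (h : S ⊆ S') {k : Type*}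
    [Semiring k] (θ : heckeAlgebra N 2 S →+* k) {ℓ : ℕ} (hℓ : ℓ.Prime) (hℓN : ¬ ℓ ∣ N)
    (hℓS' : ℓ ∉ S') :
    backRestrict401 h θ (heckeAlgebra.T hℓ hℓN hℓS')
      = θ (heckeAlgebra.T hℓ hℓN (fun hS => hℓS' (h hS))) := rfl

/-- A field receiving `ZMod p` has characteristic `p`. -/
theorem back401_charP (p : ℕ) [Fact p.Prime] {k : Type*} [Field k] (ι : ZMod p →+* k) :
    CharP k p :=
  charP_of_injective_ringHom ι.injective p

section Curve

variable (p : ℕ) [Fact p.Prime] (W : WeierstrassCurve ℤ) (hΔ : W.Δ ≠ 0)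
  (hirr : W.ModRepIsIrreducible p)
  (hcard : Nat.card (Submodule.torsionBy ℤ
    ((W.map (Int.castRingHom ℚ))⁄(AlgebraicClosure ℚ)).Point p) = p ^ 2)
  (hker : GaloisFactorsThroughFiniteLevel
    (WeierstrassCurve.Affine.Point.galoisRepModuleEnd (K := AlgebraicClosure ℚ) ℚ
      (W.map (Int.castRingHom ℚ)) p))
  {k : Type} [Field k] (ι : ZMod p →+* k)
  {M : ℕ} [NeZero M] {S : Set ℕ} (θ : heckeAlgebra M 2 S →+* k)

include hΔ hirr in
/-- **The values of `θ` at the good primes.** -/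
theorem back401_theta_T
    (h : Fermat.Agent.S59.G4.ResFrobCond (curveResidual p W hcard hker ι) θ)
    {ℓ : ℕ} (hℓ : ℓ.Prime) (hℓM : ¬ ℓ ∣ M) (hℓS : ℓ ∉ S) (h5 : 5 ≤ ℓ)
    (hgood : W.IsGoodPrimeFor ℓ) (hℓp : ℓ ≠ p) :
    θ (heckeAlgebra.T hℓ hℓM hℓS) = ((W.apOfModel ℓ : ℤ) : k) := by
  obtain ⟨A, σ, hA, hσ⟩ := Fermat.Agent.S54.exists_frobenius ℓ hℓ
  have h1 := h ℓ hℓ hℓM hℓS A hA σ hσ
  have h2 := dict_charpoly_good W hΔ p hirr hcard hker ℓ hℓ h5 hgood hℓp A hA σ hσ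
  have h3 : LinearMap.charpoly ((curveResidual p W hcard hker ι).ρ σ)
      = (LinearMap.charpoly
          (((W.map (Int.castRingHom ℚ)).residualGaloisRepOf p hcard hker).ρ σ)).map ι :=
    dict_charpoly_baseChangeAlong ι _ σ
  rw [h2] at h3
  rw [h3] at h1
  simp only [Polynomial.map_add, Polynomial.map_sub, Polynomial.map_mul, Polynomial.map_pow,
    Polynomial.map_X, Polynomial.map_C] at h1
  have e1 : ∀ b c : k, (X ^ 2 - C b * X + C c : k[X]).coeff 1 = -b := by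
    intro b c
    simp [coeff_X_pow, coeff_C]
  have h4 := congrArg (fun f : k[X] => f.coeff 1) h1
  simp only [e1] at h4
  rw [map_intCast] at h4
  exact (neg_injective h4).symm

include hΔ hirr in
/-- **Congruence outside a finite set.** -/
theorem back401_congr (S : Finset ℕ) (θ : heckeAlgebra M 2 (↑S : Set ℕ) →+* k)
    (h : Fermat.Agent.S59.G4.ResFrobCond (curveResidual p W hcard hker ι) θ) :
    ∃ (f : CuspForm (CongruenceSubgroup.Gamma0 M) 2) (𝔪 : Ideal (integralClosure ℤ ℂ))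
      (S' : Finset ℕ),
      f.IsNormalizedEigenform ∧ 𝔪.IsMaximal ∧ (p : integralClosure ℤ ℂ) ∈ 𝔪 ∧
      ∀ ℓ : ℕ, ℓ.Prime → ℓ ∉ S' →
        ∃ a : integralClosure ℤ ℂ, (a : ℂ) = ModularFormClass.qCoeff f ℓ ∧
          a - ((W.apOfModel ℓ : ℤ) : integralClosure ℤ ℂ) ∈ 𝔪 := by
  classical
  have hM0 : M ≠ 0 := NeZero.ne M
  haveI : CharP k p := back401_charP p ι
  -- the enlarged finite set
  set S' : Finset ℕ := S ∪ ({2, 3, p} ∪ (M.primeFactors ∪ W.Δ.natAbs.primeFactors)) with hS'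
  have hsub : (↑S : Set ℕ) ⊆ (↑S' : Set ℕ) := by
    intro x hx
    rw [hS']
    exact Finset.mem_coe.mpr (Finset.mem_union_left _ (Finset.mem_coe.mp hx))
  have hout : ∀ ℓ : ℕ, ℓ.Prime → ℓ ∉ S' →
      ℓ ∉ S ∧ ℓ ≠ 2 ∧ ℓ ≠ 3 ∧ ℓ ≠ p ∧ ¬ ℓ ∣ M ∧ W.IsGoodPrimeFor ℓ := by
    intro ℓ hℓ hℓS'
    rw [hS'] at hℓS'
    simp only [Finset.mem_union, Finset.mem_insert, Finset.mem_singleton, not_or] at hℓS'
    obtain ⟨hS, ⟨h2, h3, hp⟩, hM, hD⟩ := hℓS'
    refine ⟨hS, h2, h3, hp, fun hd => hM (Nat.mem_primeFactors.mpr ⟨hℓ, hd, hM0⟩), ?_⟩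
    intro hd
    apply hD
    refine Nat.mem_primeFactors.mpr ⟨hℓ, ?_, Int.natAbs_ne_zero.mpr hΔ⟩
    exact Int.natCast_dvd.mp hd
  obtain ⟨f, 𝔪, hf, h𝔪, hp𝔪, hcong⟩ :=
    Fermat.Agent.Lib.Ribet.H584.exists_eigenform_congr_of_ringHom (↑S' : Set ℕ) p
      (backRestrict401 hsub θ) (fun ℓ => W.apOfModel ℓ) (by
        intro ℓ hℓ hℓM hℓS'
        obtain ⟨hS, h2, h3, hp, -, hgood⟩ := hout ℓ hℓ (fun hm => hℓS' (Finset.mem_coe.mpr hm))
        rw [backRestrict401_T]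
        exact back401_theta_T p W hΔ hirr hcard hker ι θ h hℓ hℓM _
          (dict_five_le hℓ h2 h3) hgood hp)
  refine ⟨f, 𝔪, S', hf, h𝔪, hp𝔪, ?_⟩
  intro ℓ hℓ hℓS'
  obtain ⟨-, -, -, -, hℓM, -⟩ := hout ℓ hℓ hℓS'
  exact hcong ℓ hℓ hℓM (fun hm => hℓS' (Finset.mem_coe.mp hm))

end Curve

end Fermat.Agent.S38.H401
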