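import Fermat.Agent.S38.H401.Back
import Fermat.Agent.Ribet.H764.TransportFree

/-!
# Row HARD, cell TOP, piece BACK (helper401): Frey form

`back401_resModular_of_r3 : R3' → (ResModular 𝒪 (E[p] ⊗ k) M S → P.ModularRepOfLevel M)` —
the field (BACK) of `S38.H727.FreyIADataStatement`, for `ρ̄ = curveResidual P.p P.freyCurveInt …`.
`R3'` is `Ribet.Spec.AlmostAllToWitnessStatement` (on main: `H764.almostAllToWitness_of_S42` on
the frozen `S42.result`).  Sorry-free.
-/

set_option autoImplicit false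
set_option linter.style.haveILetI false

open Polynomial IsLocalRing CuspForm
open WeierstrassCurve WeierstrassCurve.Affine WeierstrassCurve.Affine.Point

namespace Fermat.Agent.S38.H401

open Fermat.Agent.S59.Arch Fermat.Agent.S59.H401
open Fermat.Agent.Ribet Fermat.Agent.Ribet.Spec

/-- Transport of irreducibility along an equality of curves. -/
theorem back401_irr_transport {E E' : WeierstrassCurve ℚ} (h : E = E') (n : ℕ) :
    GaloisRepIsIrreducible (K := AlgebraicClosure ℚ) ℚ E n ↔
      GaloisRepIsIrreducible (K := AlgebraicClosure ℚ) ℚ E' n := by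
  subst h
  rfl

/-- The integral Frey curve has irreducible `E[p]` if the Frey curve has. -/
theorem back401_freyInt_irr (P : FreyPackage)
    (hirr : GaloisRepIsIrreducible (K := AlgebraicClosure ℚ) ℚ P.freyCurve P.p) :
    P.freyCurveInt.ModRepIsIrreducible P.p :=
  (back401_irr_transport (H104.freyCurve_eq_map P) P.p).mp hirr

section Frey

variable (P : FreyPackage) [Fact P.p.Prime]
  (hcard : Nat.card (Submodule.torsionBy ℤ
    ((P.freyCurveInt.map (Int.castRingHom ℚ))⁄(AlgebraicClosure ℚ)).Point P.p) = P.p ^ 2)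
  (hker : GaloisFactorsThroughFiniteLevel
    (WeierstrassCurve.Affine.Point.galoisRepModuleEnd (K := AlgebraicClosure ℚ) ℚ
      (P.freyCurveInt.map (Int.castRingHom ℚ)) P.p))

/-- **BACK, character form.** -/
theorem back401_frey_of_r3 (hR3' : AlmostAllToWitnessStatement)
    (hirr : GaloisRepIsIrreducible (K := AlgebraicClosure ℚ) ℚ P.freyCurve P.p)
    {k : Type} [Field k] (ι : ZMod P.p →+* k)
    {M : ℕ} [NeZero M] (S : Finset ℕ) (θ : heckeAlgebra M 2 (↑S : Set ℕ) →+* k)
    (h : Fermat.Agent.S59.G4.ResFrobCond (curveResidual P.p P.freyCurveInt hcard hker ι) θ) :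
    P.ModularRepOfLevel M := by
  obtain ⟨f, 𝔪, S', hf, h𝔪, hp𝔪, hcong⟩ :=
    back401_congr P.p P.freyCurveInt (H104.Δ_ne_zero P) (back401_freyInt_irr P hirr)
      hcard hker ι S θ h
  have hw := hR3' P M (Nat.pos_of_ne_zero (NeZero.ne M)) f P.freyCurveInt 𝔪 S' hf
    (H104.isIntegralModelOf P) h𝔪 hp𝔪 hcong
  exact ⟨f, P.freyCurveInt, 𝔪, hw⟩

/-- **BACK, `ResModular` form** (the field (BACK) of the TOP data). -/
theorem back401_resModular_of_r3 (hR3' : AlmostAllToWitnessStatement)
    (hirr : GaloisRepIsIrreducible (K := AlgebraicClosure ℚ) ℚ P.freyCurve P.p)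
    (𝒪 : Type) [CommRing 𝒪] [IsDomain 𝒪] [IsDiscreteValuationRing 𝒪]
    (ι : ZMod P.p →+* ResidueField 𝒪) (M : ℕ) (S : Finset ℕ)
    (h : ResModular 𝒪 (curveResidual P.p P.freyCurveInt hcard hker ι) M S) :
    P.ModularRepOfLevel M := by
  obtain ⟨hM, θ, hθ⟩ := h
  exact back401_frey_of_r3 P hcard hker hR3' hirr ι S θ hθ

end Frey

end Fermat.Agent.S38.H401
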