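import Fermat.Agent.S59.H934.LevelOpt
import Fermat.Agent.S59.G4.Assembly
import Fermat.Agent.S59.G4.H547.Red
import Fermat.Agent.S59.G4.H109.Points
import Fermat.Agent.S59.G4.H532.TraceFn
import Fermat.Agent.S59.G4.H109.Res2
import Fermat.Agent.S59.H659.FlatClosed
import Fermat.Agent.S58.H273.Hres
import Fermat.Agent.Lib.Cheb.Chebotarev
import Fermat.Agent.S23
import Fermat.Agent.S30
import Fermat.Agent.S59.TW.H659.Clean.S32
import Fermat.Agent.S59.H294.ResFlatIrr
import Fermat.Agent.S59.H294.ResFlatBN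
import Fermat.Agent.S59.H294.ResFlatHopf
import Fermat.Agent.S59.H294.ResFlatEmb

/-!
# Row HARD, cell TOP, piece FLAT on a realizer-free chain (helper401)

`S59/H294/ResFlat.lean` (main) has BOTH `S31/H22/PowTr.lean` (through layer G4) and
`S31/H982/TracePow.lean` (through `Fermat.Agent.S32`) in its closure, which collide in the kernel
replay of the grader (`S31.powTr.eq_def`).  This file is a copy of the two theorems
`g4_294`, `resFlat_of_dict294` of helper294 with the frozen S32 taken from the realizer-free chain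
`S59.TW.H659.Clean.s32Statement_clean659` (helper659, on main).  The closure contains
`S31/H22/PowTr.lean` only.
-/

set_option autoImplicit false
set_option linter.style.haveILetI false

open Polynomial IsLocalRing
open scoped TensorProduct WeierstrassCurve.Affine

namespace Fermat.Agent.S38.H401

open Fermat.Agent.S59 Fermat.Agent.S59.Arch Fermat.Agent.S59.H294

/-- **Layer G4, assembled** (all pieces are on main). -/
theorem g4_clean401 : G4.G4Statement :=
  G4.g4_of Fermat.Agent.S30.result G4.H547.red G4.H109.points G4.H532.traceFn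
    G4.H109.resStatement2

/-- **ResFlat from the datum**: the core of the leaf, for any coefficient data as provided by
cell DICT. -/
theorem resFlat_of_dict_clean401 (p : ℕ) [Fact p.Prime] (hp2 : p ≠ 2)
    (W : WeierstrassCurve ℤ) (hΔ : W.Δ ≠ 0) (hirr : W.ModRepIsIrreducible p)
    (hcard : Nat.card (Submodule.torsionBy ℤ
      ((W.map (Int.castRingHom ℚ))⁄(AlgebraicClosure ℚ)).Point p) = p ^ 2)
    (hker : GaloisFactorsThroughFiniteLevel
      (WeierstrassCurve.Affine.Point.galoisRepModuleEnd (K := AlgebraicClosure ℚ) ℚ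
        (W.map (Int.castRingHom ℚ)) p))
    (M : ℕ) [NeZero M] (hpM : ¬ p ∣ M) (S : Finset ℕ) (hpS : p ∈ S)
    (hNS : ∀ q : ℕ, q.Prime → q ∣ M → q ∈ S)
    (𝒪 : Type) [CommRing 𝒪] [IsDomain 𝒪] [IsDiscreteValuationRing 𝒪]
    [IsAdicComplete (maximalIdeal 𝒪) 𝒪] [Finite (ResidueField 𝒪)] [CharZero 𝒪]
    (hp𝒪 : (p : 𝒪) ∈ maximalIdeal 𝒪)
    (ι : ZMod p →+* ResidueField 𝒪)
    (χ : CuspForm.heckeAlgebra M 2 (↑S : Set ℕ) →+* 𝒪)
    (hRF : G4.ResFrobCond (curveResidual p W hcard hker ι) ((residue 𝒪).comp χ)) :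
    (GaloisRepAdic.ofResidualGaloisRep
      ((W.map (Int.castRingHom ℚ)).residualGaloisRepOf p hcard hker)).IsFlatAt p := by
  classical
  have hp : p.Prime := Fact.out
  -- the residual representation and its oddness
  set ρE : ResidualGaloisRep (ZMod p) :=
    (W.map (Int.castRingHom ℚ)).residualGaloisRepOf p hcard hker with hρE
  have hirrE : ρE.IsIrreducible := Fermat.Agent.S58.H273.wRes_isIrreducible W hΔ p hirr
  have hdetE : LinearMap.det (ρE.ρ complexConjugation) = -1 :=
    Fermat.Agent.S58.H273.wRes_det_involution W hΔ p hp2 hirr _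
      complexConjugation_mul_self
      Fermat.Agent.S59.G4.H307.complexConjugation_ne_one
  have h2p : (2 : ZMod p) ≠ 0 := Fermat.Agent.S58.H273.two_ne_zero_zmod p hp2
  set ρk : ResidualGaloisRep (ResidueField 𝒪) := curveResidual p W hcard hker ι with hρk
  have habs : ρk.IsAbsolutelyIrreducible :=
    absIrr_baseChangeAlong294 ι h2p ρE hirrE _
      complexConjugation_mul_self hdetE
  have hirrk : ρk.IsIrreducible := Fermat.Agent.S59.G4.H307.isIrreducible_of_absIrr ρk habs
  have h2k : (2 : ResidueField 𝒪) ≠ 0 := by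
    intro h
    apply h2p
    apply ι.injective
    rw [map_ofNat, h, map_zero]
  have hdetk : LinearMap.det (ρk.ρ complexConjugation) = -1 := by
    have h1 := det_baseChangeAlong294 ι ρE complexConjugation
    rw [hdetE, map_neg, map_one] at h1
    exact h1
  -- the datum
  have hθ : G4.NonEisenstein ((residue 𝒪).comp χ) := ⟨ρk, habs, hRF⟩
  haveI : Fact (CuspForm.HasIntegralStructure M 2) := ⟨Fermat.Agent.S23.result M⟩
  obtain ⟨H, -⟩ := g4_clean401 p hp2 M S hpS hNS 𝒪 hp𝒪 ((residue 𝒪).comp χ) hθ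
  have hflat : H.ρ.IsFlatAt p := Fermat.Agent.S59.TW.H659.Clean.s32Statement_clean659 hp hp2 hp𝒪 hpM hpS hNS H
  -- Brauer–Nesbitt
  obtain ⟨e⟩ := datum_residual_isEquiv294 Fermat.Agent.Lib.Cheb.chebotarev H h2k ρk hRF hirrk
    complexConjugation
    complexConjugation_mul_self hdetk
  -- the embedding
  obtain ⟨i1, hi1, hi1σ⟩ : ∃ i : ρE.V →+ ρk.V, Function.Injective i ∧
      ∀ (σ : AlgebraicClosure ℚ ≃ₐ[ℚ] AlgebraicClosure ℚ) (v : ρE.V),
        i (ρE.ρ σ v) = ρk.ρ σ (i v) := exists_embedding_baseChangeAlong294 ι ρE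
  obtain ⟨i2, hi2, hi2σ⟩ := exists_embedding_baseChangeAlong294
    (ResidueField.map (algebraMap 𝒪 (CuspForm.heckeLocal M (↑S : Set ℕ) 𝒪 ((residue 𝒪).comp χ))))
    ρk
  have hSub := Fermat.Agent.S59.H659.hopfSubquot_closed p
  refine isFlatAt_ofResidual_of_embedding294 hSub H.ρ hflat ρE
    ((e.symm.toLinearEquiv.toLinearMap.toAddMonoidHom.comp i2).comp i1) ?_ ?_
  · exact (e.symm.toLinearEquiv.injective.comp hi2).comp hi1
  · intro σ v
    show e.symm.toLinearEquiv (i2 (i1 (ρE.ρ σ v)))
      = H.ρ.residual.ρ σ (e.symm.toLinearEquiv (i2 (i1 v)))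
    rw [hi1σ, hi2σ, e.symm.map_apply]

end Fermat.Agent.S38.H401
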