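import Fermat.Agent.S38.H401.TopMain
import Fermat.Agent.S59.H401.DictGenFinal
import Fermat.Agent.S42

/-!
# Row HARD, cell TOP (helper401): `IACore5Statement → H723.HardMinScalarStatement`, unconditional

All the dictionary inputs of `hardMinScalar_of_iaCore5_401` are plugged:
`S59.H401.dictGen` (frozen S29), `H764.almostAllToWitness_of_S42` and
`H764.modelTransport_of_S42` on the frozen `S42.result`.  The ONLY hypothesis left is the output
of the Ihara-avoidance chain, `S38.IA.IACore5Statement`.
-/

set_option autoImplicit false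

namespace Fermat.Agent.S38.H401

open Fermat.Agent.Ribet Fermat.Agent.Ribet.Spec

/-- (R3') on the frozen S42. -/
theorem top401_r3 : AlmostAllToWitnessStatement :=
  H764.almostAllToWitness_of_S42 fun P M hM => Fermat.Agent.S42.result P M hM

/-- (G2) model transport on the frozen S42. -/
theorem top401_modelTransport : ModelTransportStatement :=
  H764.modelTransport_of_S42 fun P M hM => Fermat.Agent.S42.result P M hM

/-- **EVEN**, unconditional: a modular conductor level of a Frey package is even. -/
theorem top401_even_final (P : FreyPackage) {L : ℕ} (hL : 0 < L)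
    (hirr : WeierstrassCurve.Affine.Point.GaloisRepIsIrreducible (K := AlgebraicClosure ℚ) ℚ
      P.freyCurve P.p)
    (hmod : P.ModularRepOfLevel L) : 2 ∣ L :=
  top401_even top401_modelTransport P hL hirr hmod

/-- **BACK**, unconditional. -/
theorem back401_resModular (P : FreyPackage) [Fact P.p.Prime]
    (hcard : Nat.card (Submodule.torsionBy ℤ
      (WeierstrassCurve.Affine.baseChange (P.freyCurveInt.map (Int.castRingHom ℚ))
        (AlgebraicClosure ℚ)).Point P.p) = P.p ^ 2)
    (hker : GaloisFactorsThroughFiniteLevel
      (WeierstrassCurve.Affine.Point.galoisRepModuleEnd (K := AlgebraicClosure ℚ) ℚ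
        (P.freyCurveInt.map (Int.castRingHom ℚ)) P.p))
    (hirr : WeierstrassCurve.Affine.Point.GaloisRepIsIrreducible (K := AlgebraicClosure ℚ) ℚ
      P.freyCurve P.p)
    (𝒪 : Type) [CommRing 𝒪] [IsDomain 𝒪] [IsDiscreteValuationRing 𝒪]
    (ι : ZMod P.p →+* IsLocalRing.ResidueField 𝒪) (M : ℕ) (S : Finset ℕ)
    (h : Fermat.Agent.S59.Arch.ResModular 𝒪
      (Fermat.Agent.S59.Arch.curveResidual P.p P.freyCurveInt hcard hker ι) M S) :
    P.ModularRepOfLevel M :=
  back401_resModular_of_r3 P hcard hker top401_r3 hirr 𝒪 ι M S h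

/-- **TOP of row HARD**: `IACore5 ⇒ HardMinScalar`, with no other hypothesis. -/
theorem hardMinScalar_of_iaCore5_final (hIA : Fermat.Agent.S38.IA.IACore5Statement) :
    H723.HardMinScalarStatement :=
  hardMinScalar_of_iaCore5_401 hIA Fermat.Agent.S59.H401.dictGen top401_r3 top401_modelTransport

end Fermat.Agent.S38.H401
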