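import Fermat.Agent.S38.H401.BackFrey
import Fermat.Agent.S38.IA.Spec5
import Fermat.Agent.Ribet.H723.HardMinScalar
import Fermat.Agent.Ribet.H723.TopPiv
import Fermat.Agent.Ribet.H577.Ram2Hyp
import Fermat.Agent.S59.H401.DictGen
import Fermat.Agent.S38.H401.FlatClean
import Fermat.Agent.S59.H294.ResUnram
import Fermat.Agent.S59.H601.ResidualBC
import Fermat.Agent.S58.H273.Hres

/-!
# Row HARD, cell TOP (helper401, independent assembly): `HardMinScalar ⇐ IACore5`

`hardMinScalar_of_iaCore5_401 :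
    IACore5Statement → DictGenStatement → R3' → ModelTransport → H723.HardMinScalarStatement`

with every other input taken from compiled files:
* `hcard`, `hker`      : `S58.H273.wRes_hcard`, `wRes_hker`;
* EVEN (`2 ∣ L`)       : `S59.H294.resUnram_gen294` + `Ribet.H577.frey_curveResidual_ramified_two577`;
* DICT + ROOTS (FWD)   : `S59.H401.DictGenStatement` (`dictGen`, from frozen S29);
* `ResidualHyp`        : `Ribet.H577.frey_residualHyp577` (`Smin = {2, p}`);
* FLAT                 : `S38.H401.resFlat_of_dict_clean401` (realizer-free copy of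
  `S59.H294.resFlat_of_dict294`) + `S59.H601` base change;
* PIV                  : `Ribet.H723.Top.isPivotSet_frey_level`;
* BACK                 : `S38.H401.back401_resModular_of_r3`.
Sorry-free.
-/

set_option autoImplicit false
set_option linter.style.haveILetI false

open Polynomial IsLocalRing CuspForm
open WeierstrassCurve WeierstrassCurve.Affine WeierstrassCurve.Affine.Point

namespace Fermat.Agent.S38.H401

open Fermat.Agent.S59.Arch Fermat.Agent.S59.H401 Fermat.Agent.S38.IA
open Fermat.Agent.Ribet Fermat.Agent.Ribet.Spec Fermat.Agent.Ribet.H723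

/-! ### Arithmetic of the level -/

/-- For an even squarefree `L`: `2 · ∏ (odd primes of L) = L`. -/
theorem top401_two_mul_prod {L : ℕ} (hsq : Squarefree L) (h2 : 2 ∣ L) :
    2 * ∏ q ∈ L.primeFactors.erase 2, q = L := by
  have hL0 : L ≠ 0 := hsq.ne_zero
  have hmem : 2 ∈ L.primeFactors := Nat.mem_primeFactors.mpr ⟨Nat.prime_two, h2, hL0⟩
  have h := Finset.mul_prod_erase L.primeFactors (fun q => q) hmem
  rw [h]
  exact Nat.prod_primeFactors_of_squarefree hsq

/-- For an even squarefree `L` and an odd prime `q ∣ L`: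
`2 · ∏ (odd primes of L other than q) = L / q`. -/
theorem top401_two_mul_prod_erase {L q : ℕ} (hsq : Squarefree L) (h2 : 2 ∣ L)
    (hq : q ∈ L.primeFactors.erase 2) :
    2 * ∏ r ∈ (L.primeFactors.erase 2).erase q, r = L / q := by
  have hqpos : 0 < q := (Nat.prime_of_mem_primeFactors (Finset.mem_of_mem_erase hq)).pos
  have h := Finset.mul_prod_erase (L.primeFactors.erase 2) (fun r => r) hq
  have h' := top401_two_mul_prod hsq h2
  rw [← h] at h'
  generalize (∏ r ∈ (L.primeFactors.erase 2).erase q, r) = X at h' ⊢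
  symm
  apply Nat.div_eq_of_eq_mul_right hqpos
  rw [← h']
  ring

/-- `{2, p}.erase p = {2}` for `p ≠ 2`. -/
theorem top401_erase {p : ℕ} (hp2 : p ≠ 2) : ({2, p} : Finset ℕ).erase p = {2} := by
  ext x
  simp only [Finset.mem_erase, Finset.mem_insert, Finset.mem_singleton]
  constructor
  · rintro ⟨hxp, rfl | rfl⟩
    · rfl
    · exact absurd rfl hxp
  · rintro rfl
    exact ⟨fun h => hp2 h.symm, Or.inl rfl⟩

/-! ### EVEN -/

/-- **EVEN.**  A modular conductor level of a Frey package is even. -/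
theorem top401_even (hMT : ModelTransportStatement) (P : FreyPackage) {L : ℕ}
    (hL : 0 < L)
    (hirr : GaloisRepIsIrreducible (K := AlgebraicClosure ℚ) ℚ P.freyCurve P.p)
    (hmod : P.ModularRepOfLevel L) : 2 ∣ L := by
  haveI : Fact P.p.Prime := ⟨P.pp⟩
  have hp2 : P.p ≠ 2 := by
    have := P.hp5
    omega
  have hΔ := H104.Δ_ne_zero P
  have hcard := Fermat.Agent.S58.H273.wRes_hcard P.freyCurveInt hΔ P.p
  have hker := Fermat.Agent.S58.H273.wRes_hker P.freyCurveInt hΔ P.p
  by_contra h2L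
  have hres := hMT P L hL hmod P.freyCurveInt (H104.isIntegralModelOf P)
  have hun := Fermat.Agent.S59.H294.resUnram_gen294 P.p hp2 P.freyCurveInt hΔ
    (back401_freyInt_irr P hirr) hcard hker L hL.ne' hres 2 Nat.prime_two
    (fun h => hp2 h.symm) h2L
  exact H577.frey_curveResidual_ramified_two577 P hcard hker (RingHom.id (ZMod P.p))
    ((Fermat.Agent.S59.H601.isUnramifiedAt_baseChangeAlong_iff601 (RingHom.id (ZMod P.p)) _ 2).mpr
      hun)

/-! ### TOP -/

/-- **TOP of row HARD** (independent assembly): the official target of the row from the output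
of the Ihara-avoidance chain for `5 ≤ p`. -/
theorem hardMinScalar_of_iaCore5_401 (hIA : IACore5Statement) (hDict : DictGenStatement)
    (hR3' : AlmostAllToWitnessStatement) (hMT : ModelTransportStatement) :
    HardMinScalarStatement := by
  intro P L hcond hpL hirr hmod hmin hscal q hq hq2 hqL
  classical
  haveI : Fact P.p.Prime := ⟨P.pp⟩
  have hp2 : P.p ≠ 2 := by
    have := P.hp5
    omega
  have hL0 : L ≠ 0 := hcond.pos.ne'
  haveI : NeZero L := ⟨hL0⟩
  have hΔ := H104.Δ_ne_zero P
  have hirr₀ := back401_freyInt_irr P hirr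
  have hcard := Fermat.Agent.S58.H273.wRes_hcard P.freyCurveInt hΔ P.p
  have hker := Fermat.Agent.S58.H273.wRes_hker P.freyCurveInt hΔ P.p
  have h2L : 2 ∣ L := top401_even hMT P hcond.pos hirr hmod
  have hres := hMT P L hcond.pos hmod P.freyCurveInt (H104.isIntegralModelOf P)
  -- the sets
  set Smin : Finset ℕ := {2, P.p} with hSmin
  set Piv : Finset ℕ := L.primeFactors.erase 2 with hPivdef
  have hpS : P.p ∈ Smin ∪ Piv := Finset.mem_union_left _ (by rw [hSmin]; simp)
  have hNS : ∀ r : ℕ, r.Prime → r ∣ L → r ∈ Smin ∪ Piv := by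
    intro r hr hrL
    by_cases h2 : r = 2
    · exact Finset.mem_union_left _ (by rw [hSmin, h2]; simp)
    · exact Finset.mem_union_right _
        (Finset.mem_erase.mpr ⟨h2, Nat.mem_primeFactors.mpr ⟨hr, hrL, hL0⟩⟩)
  have hPivprime : ∀ r ∈ Piv, r.Prime := fun r hr =>
    Nat.prime_of_mem_primeFactors (Finset.mem_of_mem_erase hr)
  -- the order of the roots of unity
  set n : ℕ := ∏ r ∈ Piv, (r - 1) with hn
  have hnpos : 0 < n := Finset.prod_pos fun r hr => Nat.sub_pos_of_lt (hPivprime r hr).one_lt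
  -- DICT + ROOTS
  obtain ⟨𝒪, i1, i2, i3, i4, i5, i6, ι, χ, hp𝒪, hsplit, hRF, -, hroots⟩ :=
    hDict P.p P.freyCurveInt hΔ hirr₀ hcard hker L (Smin ∪ Piv) hpS hNS hres n hnpos
  -- the residual representation
  set ρbar : ResidualGaloisRep (ResidueField 𝒪) :=
    curveResidual P.p P.freyCurveInt hcard hker ι with hρbar
  have hRH : ResidualHyp P.p 𝒪 ρbar Smin :=
    H577.frey_residualHyp577 P hcard hker hirr 𝒪 hp𝒪 ι hsplit
  have hflat : (GaloisRepAdic.ofResidualGaloisRep ρbar).IsFlatAt P.p := by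
    have h1 := resFlat_of_dict_clean401 P.p hp2 P.freyCurveInt hΔ hirr₀ hcard hker
      L hpL (Smin ∪ Piv) hpS hNS 𝒪 hp𝒪 ι χ hRF
    exact (Fermat.Agent.S59.H601.isFlatAt_ofResidual_baseChangeAlong_iff601 P.p _
      (ResidueField 𝒪) ι).mpr h1
  have hPiv : IsPivotSet P.p ρbar Smin Piv :=
    H723.Top.isPivotSet_frey_level P hcard hker ι Smin
      (fun r hr => by
        rw [hSmin] at hr
        simpa using hr) hpL hscal
  have hne : Piv.Nonempty :=
    ⟨q, Finset.mem_erase.mpr ⟨hq2, Nat.mem_primeFactors.mpr ⟨hq, hqL, hL0⟩⟩⟩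
  have hroots' : ∀ r ∈ Piv, ∀ m : ℕ, P.p ^ m ∣ r - 1 → ∃ ζ : 𝒪, IsPrimitiveRoot ζ (P.p ^ m) :=
    fun r hr m hm => hroots _ (hm.trans (Finset.dvd_prod_of_mem (fun r => r - 1) hr))
  have hS2 : Smin.erase P.p = {2} := top401_erase hp2
  have hlev : ribetLevel P.p Smin Piv = L := by
    unfold ribetLevel
    rw [hS2, Finset.prod_singleton]
    exact top401_two_mul_prod hcond.squarefree h2L
  have hres' : ResModular 𝒪 ρbar (ribetLevel P.p Smin Piv) (Smin ∪ Piv) := by
    rw [hlev]
    exact ⟨inferInstance, (residue 𝒪).comp χ, hRF⟩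
  obtain ⟨q', hq', S, hS⟩ :=
    hIA P.p P.hp5 𝒪 ρbar Smin hRH hflat Piv hPiv hne hroots' hres'
  have hlev' : ribetLevel P.p Smin (Piv.erase q') = L / q' := by
    unfold ribetLevel
    rw [hS2, Finset.prod_singleton]
    exact top401_two_mul_prod_erase hcond.squarefree h2L hq'
  rw [hlev'] at hS
  have hq'p : q'.Prime := hPivprime q' hq'
  have hq'L : q' ∣ L := Nat.dvd_of_mem_primeFactors (Finset.mem_of_mem_erase hq')
  exact hmin q' hq'p hq'L
    (back401_resModular_of_r3 P hcard hker hR3' hirr 𝒪 ι (L / q') S hS)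

end Fermat.Agent.S38.H401
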